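import Fermat.Agent.S36.Eng.Spec

/-!
# REG at the closed points lying on the middle component ONLY, from `Qep3` alone
(helper876, S36 / MOD3, leaf `LeafRegM`: fields `regular_m` and `regular_i`)

Elementwise, in the vocabulary of `Eng.TripleCtx`.  NO noetherianity, NO Hartogs lemma,
NO localisation, NO `IsLocDVR`, NO modular unit with prescribed divisor, NO horizontal analysis.

`B ⊆ V₁ ∩ V₂ ∩ V₃` a chart with `Qep3 w B V₁ V₂ V₃`, `w` a uniformiser of `V₁` and of `V₃`,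
`𝔪` a prime of `B` on the component `V₂` and NOT on `V₁`, NOT on `V₃`
(a point of the middle component only: an ordinary point of `mid`, or a cusp of `mid`).  If

* `x ∈ B` is a uniformiser of `V₂`,
* `g₁ ∈ B ∖ 𝔪`, `g₂ ∈ B`,
* `x ^ N · g₂ ≡ w ^ k · g₁` modulo `w ^ k · 𝔪_{V₂}`      (a congruence in the residue field of `V₂`),

then `x` generates `B ∩ 𝔪_{V₂}` locally at `𝔪`: `Eng.PrincipalAt B 𝔪 V₂`.

Proof.  Choose `e₁ ∈ B ∩ 𝔪_{V₁}`, `e₃ ∈ B ∩ 𝔪_{V₃}` outside `𝔪`, `e = e₁ e₃`.  Then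
`G = x ^ N g₂ e ^ k / w ^ k` and `c = a x ^ (N - 1) g₂ e ^ k / w ^ k` (`a ∈ B ∩ 𝔪_{V₂}`) lie in
`V₁ ∩ V₂ ∩ V₃`, hence in `B` (`Qep3` iterated), `G a = x c`, and `G ≡ g₁ e ^ k` modulo `𝔪_{V₂}`,
so `G ∉ 𝔪`.

* `lite_qep3_pow`          : `Qep3` iterated;
* `principalAt_lite`       : the statement above;
* `lite_unifAt_of_cong`    : the congruence + `w ^ k = unit · t ^ N` (`t` a uniformiser) ⟹ `x` is a
                             uniformiser;
* `principalAt_lite'`      : the same with `w ^ k = unit · t ^ N` instead of "`x` uniformiser"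
                             (application: `k = 12`, `N = 12 (q - 1)`, `ram₂`).
-/

set_option autoImplicit false

namespace Fermat.Agent.S36.H876

open Fermat.Agent.S36.Eng

variable {R F : Type*} [CommRing R] [Field F] [Algebra R F]

/-- `𝔪_V · V ⊆ 𝔪_V`. -/
theorem lite_nonunits_mul (V : ValuationSubring F) {a b : F} (ha : a ∈ V.nonunits)
    (hb : b ∈ V) : a * b ∈ V.nonunits := by
  rw [ValuationSubring.mem_nonunits_iff, map_mul]
  exact mul_lt_one_of_lt_of_le ((V.mem_nonunits_iff).1 ha) ((V.valuation_le_one_iff b).2 hb)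

/-- `Qep3`, iterated: an element `b / w ^ k` (`b ∈ B`) of `V₁ ∩ V₂ ∩ V₃` lies in `B`. -/
theorem lite_qep3_pow (w : R) (B : Subalgebra R F) (V₁ V₂ V₃ : ValuationSubring F)
    (hw0 : algebraMap R F w ≠ 0)
    (hw₁ : algebraMap R F w ∈ V₁) (hw₂ : algebraMap R F w ∈ V₂) (hw₃ : algebraMap R F w ∈ V₃)
    (hqep : Qep3 w B V₁ V₂ V₃) (k : ℕ) (b : B)
    (h₁ : (b : F) * (algebraMap R F w ^ k)⁻¹ ∈ V₁)
    (h₂ : (b : F) * (algebraMap R F w ^ k)⁻¹ ∈ V₂)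
    (h₃ : (b : F) * (algebraMap R F w ^ k)⁻¹ ∈ V₃) :
    ∃ c : B, (c : F) = (b : F) * (algebraMap R F w ^ k)⁻¹ := by
  induction k generalizing b with
  | zero => exact ⟨b, by simp⟩
  | succ k ih =>
    have e : (b : F) * (algebraMap R F w)⁻¹
        = (b : F) * (algebraMap R F w ^ (k + 1))⁻¹ * algebraMap R F w ^ k := by
      rw [pow_succ, mul_inv, mul_assoc, mul_assoc, mul_comm (algebraMap R F w)⁻¹,
        inv_mul_cancel_left₀ (pow_ne_zero k hw0)]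
    obtain ⟨c, hc⟩ := hqep b
      (by rw [e]; exact V₁.mul_mem _ _ h₁ (pow_mem hw₁ k))
      (by rw [e]; exact V₂.mul_mem _ _ h₂ (pow_mem hw₂ k))
      (by rw [e]; exact V₃.mul_mem _ _ h₃ (pow_mem hw₃ k))
    have hcF : (b : F) = algebraMap R F w * (c : F) := by
      have := congrArg (fun t : B => (t : F)) hc
      simpa using this
    have e' : (c : F) * (algebraMap R F w ^ k)⁻¹
        = (b : F) * (algebraMap R F w ^ (k + 1))⁻¹ := by
      rw [hcF, pow_succ, mul_inv]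
      field_simp
    obtain ⟨c', hc'⟩ := ih c (by rw [e']; exact h₁) (by rw [e']; exact h₂) (by rw [e']; exact h₃)
    exact ⟨c', by rw [hc', e']⟩

/-- `e ∈ 𝔪_V`, `w` a uniformiser of `V`: `e ^ k / w ^ k ∈ V`. -/
theorem lite_pow_div_mem (V : ValuationSubring F) {w₀ e : F} (hw : UnifAt V w₀)
    (he : e ∈ V.nonunits) (k : ℕ) : e ^ k * (w₀ ^ k)⁻¹ ∈ V := by
  have h : e ^ k * (w₀ ^ k)⁻¹ = (e * w₀⁻¹) ^ k := by
    rw [mul_pow, inv_pow]
  rw [h]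
  exact pow_mem (hw.2.2 e he) k

/-- **REG-lite from `Qep3`.**  See the header. -/
theorem principalAt_lite (w : R) (B : Subalgebra R F) (V₁ V₂ V₃ : ValuationSubring F)
    (hB₁ : ∀ b : B, (b : F) ∈ V₁) (hB₂ : ∀ b : B, (b : F) ∈ V₂) (hB₃ : ∀ b : B, (b : F) ∈ V₃)
    (hqep : Qep3 w B V₁ V₂ V₃)
    (hu₁ : UnifAt V₁ (algebraMap R F w)) (hu₃ : UnifAt V₃ (algebraMap R F w))
    (𝔪 : Ideal B) (h𝔪 : 𝔪.IsPrime) (hthr : Through B 𝔪 V₂)
    (hn₁ : ¬ Through B 𝔪 V₁) (hn₃ : ¬ Through B 𝔪 V₃)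
    (x g₁ g₂ : B) (k N : ℕ) (hN : 0 < N)
    (hx : UnifAt V₂ (x : F)) (hg₁ : g₁ ∉ 𝔪)
    (hcong : ((x : F) ^ N * (g₂ : F) - algebraMap R F w ^ k * (g₁ : F))
        * (algebraMap R F w ^ k)⁻¹ ∈ V₂.nonunits) :
    PrincipalAt B 𝔪 V₂ := by
  have hw0 : algebraMap R F w ≠ 0 := hu₁.1
  have hwk0 : algebraMap R F w ^ k ≠ 0 := pow_ne_zero k hw0
  have hwB : ∀ V : ValuationSubring F, (∀ b : B, (b : F) ∈ V) → algebraMap R F w ∈ V :=
    fun V h => by simpa using h (algebraMap R B w)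
  -- the two auxiliary elements
  obtain ⟨e₁, he₁V, he₁⟩ : ∃ e₁ : B, (e₁ : F) ∈ V₁.nonunits ∧ e₁ ∉ 𝔪 := by
    by_contra hcon
    exact hn₁ fun b hb => by_contra fun hbm => hcon ⟨b, hb, hbm⟩
  obtain ⟨e₃, he₃V, he₃⟩ : ∃ e₃ : B, (e₃ : F) ∈ V₃.nonunits ∧ e₃ ∉ 𝔪 := by
    by_contra hcon
    exact hn₃ fun b hb => by_contra fun hbm => hcon ⟨b, hb, hbm⟩
  -- `y = x ^ N g₂ / w ^ k ∈ V₂`, `y ≡ g₁`
  have hysplit : (x : F) ^ N * (g₂ : F) * (algebraMap R F w ^ k)⁻¹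
      = ((x : F) ^ N * (g₂ : F) - algebraMap R F w ^ k * (g₁ : F)) * (algebraMap R F w ^ k)⁻¹
        + (g₁ : F) := by
    field_simp
    ring
  have hcong' : ((x : F) ^ N * (g₂ : F) - algebraMap R F w ^ k * (g₁ : F))
      * (algebraMap R F w ^ k)⁻¹ ∈ V₂ :=
    (V₂.valuation_le_one_iff _).1 ((V₂.mem_nonunits_iff).1 hcong).le
  have hy₂ : (x : F) ^ N * (g₂ : F) * (algebraMap R F w ^ k)⁻¹ ∈ V₂ := by
    rw [hysplit]
    exact V₂.add_mem _ _ hcong' (hB₂ g₁)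
  have hE₁ : ((e₁ : F) * (e₃ : F)) ^ k * (algebraMap R F w ^ k)⁻¹ ∈ V₁ := by
    have h : ((e₁ : F) * (e₃ : F)) ^ k * (algebraMap R F w ^ k)⁻¹
        = ((e₁ : F) ^ k * (algebraMap R F w ^ k)⁻¹) * (e₃ : F) ^ k := by
      rw [mul_pow]; ring
    rw [h]
    exact V₁.mul_mem _ _ (lite_pow_div_mem V₁ hu₁ he₁V k) (pow_mem (hB₁ e₃) k)
  have hE₃ : ((e₁ : F) * (e₃ : F)) ^ k * (algebraMap R F w ^ k)⁻¹ ∈ V₃ := by
    have h : ((e₁ : F) * (e₃ : F)) ^ k * (algebraMap R F w ^ k)⁻¹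
        = ((e₃ : F) ^ k * (algebraMap R F w ^ k)⁻¹) * (e₁ : F) ^ k := by
      rw [mul_pow]; ring
    rw [h]
    exact V₃.mul_mem _ _ (lite_pow_div_mem V₃ hu₃ he₃V k) (pow_mem (hB₃ e₁) k)
  -- `G = x ^ N g₂ e ^ k / w ^ k ∈ B`
  obtain ⟨G, hG⟩ := lite_qep3_pow w B V₁ V₂ V₃ hw0 (hwB V₁ hB₁) (hwB V₂ hB₂) (hwB V₃ hB₃) hqep k
    (x ^ N * g₂ * (e₁ * e₃) ^ k)
    (by
      have : ((x ^ N * g₂ * (e₁ * e₃) ^ k : B) : F) * (algebraMap R F w ^ k)⁻¹
          = ((x : F) ^ N * (g₂ : F))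
            * (((e₁ : F) * (e₃ : F)) ^ k * (algebraMap R F w ^ k)⁻¹) := by
        push_cast; ring
      rw [this]
      exact V₁.mul_mem _ _ (V₁.mul_mem _ _ (pow_mem (hB₁ x) N) (hB₁ g₂)) hE₁)
    (by
      have : ((x ^ N * g₂ * (e₁ * e₃) ^ k : B) : F) * (algebraMap R F w ^ k)⁻¹
          = ((x : F) ^ N * (g₂ : F) * (algebraMap R F w ^ k)⁻¹)
            * ((e₁ : F) * (e₃ : F)) ^ k := by
        push_cast; ring
      rw [this]
      exact V₂.mul_mem _ _ hy₂ (pow_mem (V₂.mul_mem _ _ (hB₂ e₁) (hB₂ e₃)) k))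
    (by
      have : ((x ^ N * g₂ * (e₁ * e₃) ^ k : B) : F) * (algebraMap R F w ^ k)⁻¹
          = ((x : F) ^ N * (g₂ : F))
            * (((e₁ : F) * (e₃ : F)) ^ k * (algebraMap R F w ^ k)⁻¹) := by
        push_cast; ring
      rw [this]
      exact V₃.mul_mem _ _ (V₃.mul_mem _ _ (pow_mem (hB₃ x) N) (hB₃ g₂)) hE₃)
  have hGF : (G : F) = (x : F) ^ N * (g₂ : F) * (algebraMap R F w ^ k)⁻¹
      * ((e₁ : F) * (e₃ : F)) ^ k := by
    rw [hG]; push_cast; ring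
  -- `G ∉ 𝔪`
  have hG𝔪 : G ∉ 𝔪 := by
    intro hmem
    have h1 : G - g₁ * (e₁ * e₃) ^ k ∈ 𝔪 := by
      apply hthr
      have : ((G - g₁ * (e₁ * e₃) ^ k : B) : F)
          = ((x : F) ^ N * (g₂ : F) - algebraMap R F w ^ k * (g₁ : F))
              * (algebraMap R F w ^ k)⁻¹ * ((e₁ : F) * (e₃ : F)) ^ k := by
        push_cast
        rw [hGF, hysplit]
        ring
      rw [this]
      exact lite_nonunits_mul V₂ hcong (pow_mem (V₂.mul_mem _ _ (hB₂ e₁) (hB₂ e₃)) k)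
    have h2 : g₁ * (e₁ * e₃) ^ k ∈ 𝔪 := by
      have := 𝔪.sub_mem hmem h1
      simpa using this
    rcases h𝔪.mem_or_mem h2 with h | h
    · exact hg₁ h
    · rcases h𝔪.mem_or_mem (h𝔪.mem_of_pow_mem k h) with h' | h'
      · exact he₁ h'
      · exact he₃ h'
  obtain ⟨hx0, hxnu, hxunif⟩ := hx
  refine ⟨x, hxnu, fun a ha => ?_⟩
  obtain ⟨N', rfl⟩ : ∃ N', N = N' + 1 := ⟨N - 1, by omega⟩
  -- `c = a x ^ N' g₂ e ^ k / w ^ k ∈ B`
  have hz₂ : (a : F) * (x : F) ^ N' * (g₂ : F) * (algebraMap R F w ^ k)⁻¹ ∈ V₂ := by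
    have : (a : F) * (x : F) ^ N' * (g₂ : F) * (algebraMap R F w ^ k)⁻¹
        = ((a : F) * (x : F)⁻¹)
          * ((x : F) ^ (N' + 1) * (g₂ : F) * (algebraMap R F w ^ k)⁻¹) := by
      rw [pow_succ]
      field_simp
    rw [this]
    exact V₂.mul_mem _ _ (hxunif _ ha) hy₂
  obtain ⟨c, hc⟩ := lite_qep3_pow w B V₁ V₂ V₃ hw0 (hwB V₁ hB₁) (hwB V₂ hB₂) (hwB V₃ hB₃) hqep k
    (a * x ^ N' * g₂ * (e₁ * e₃) ^ k)
    (by
      have : ((a * x ^ N' * g₂ * (e₁ * e₃) ^ k : B) : F) * (algebraMap R F w ^ k)⁻¹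
          = ((a : F) * (x : F) ^ N' * (g₂ : F))
            * (((e₁ : F) * (e₃ : F)) ^ k * (algebraMap R F w ^ k)⁻¹) := by
        push_cast; ring
      rw [this]
      exact V₁.mul_mem _ _
        (V₁.mul_mem _ _ (V₁.mul_mem _ _ (hB₁ a) (pow_mem (hB₁ x) N')) (hB₁ g₂)) hE₁)
    (by
      have : ((a * x ^ N' * g₂ * (e₁ * e₃) ^ k : B) : F) * (algebraMap R F w ^ k)⁻¹
          = ((a : F) * (x : F) ^ N' * (g₂ : F) * (algebraMap R F w ^ k)⁻¹)
            * ((e₁ : F) * (e₃ : F)) ^ k := by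
        push_cast; ring
      rw [this]
      exact V₂.mul_mem _ _ hz₂ (pow_mem (V₂.mul_mem _ _ (hB₂ e₁) (hB₂ e₃)) k))
    (by
      have : ((a * x ^ N' * g₂ * (e₁ * e₃) ^ k : B) : F) * (algebraMap R F w ^ k)⁻¹
          = ((a : F) * (x : F) ^ N' * (g₂ : F))
            * (((e₁ : F) * (e₃ : F)) ^ k * (algebraMap R F w ^ k)⁻¹) := by
        push_cast; ring
      rw [this]
      exact V₃.mul_mem _ _
        (V₃.mul_mem _ _ (V₃.mul_mem _ _ (hB₃ a) (pow_mem (hB₃ x) N')) (hB₃ g₂)) hE₃)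
  refine ⟨G, c, hG𝔪, ?_⟩
  apply Subtype.ext
  push_cast
  rw [hGF, hc]
  push_cast
  rw [pow_succ]
  ring

/-- A unit of a valuation subring has valuation one. -/
theorem lite_valuation_eq_one (V : ValuationSubring F) {y : F} (hy : UnitAt V y) :
    V.valuation y = 1 := by
  obtain ⟨hy0, hy1, hy2⟩ := hy
  have h1 : V.valuation y ≤ 1 := (V.valuation_le_one_iff _).2 hy1
  have h2 : V.valuation y⁻¹ ≤ 1 := (V.valuation_le_one_iff _).2 hy2
  rw [map_inv₀] at h2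
  have hv0 : V.valuation y ≠ 0 := by rw [Ne, map_eq_zero]; exact hy0
  exact le_antisymm h1 ((inv_le_one₀ (zero_lt_iff.2 hv0)).1 h2)

/-- An element of `B ∖ 𝔪` has valuation one at a component through `𝔪`. -/
theorem lite_valuation_eq_one_of_not_mem (B : Subalgebra R F) (V : ValuationSubring F)
    (hB : ∀ b : B, (b : F) ∈ V) (𝔪 : Ideal B) (hthr : Through B 𝔪 V) {g : B} (hg : g ∉ 𝔪) :
    V.valuation (g : F) = 1 := by
  have h1 : V.valuation (g : F) ≤ 1 := (V.valuation_le_one_iff _).2 (hB g)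
  rcases lt_or_eq_of_le h1 with h | h
  · exact absurd (hthr g ((V.mem_nonunits_iff).2 h)) hg
  · exact h

/-- In a valuation subring: if `t` is a uniformiser and `x ^ N` has the valuation of `t ^ N`
(`N > 0`), then `x` is a uniformiser. -/
theorem lite_unifAt_of_pow (V : ValuationSubring F) (t x : F) (N : ℕ) (hN : 0 < N)
    (ht : UnifAt V t) (hxt : V.valuation x ^ N = V.valuation t ^ N) : UnifAt V x := by
  obtain ⟨ht0, htnu, htunif⟩ := ht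
  have hvx : V.valuation x = V.valuation t := by
    rcases lt_trichotomy (V.valuation x) (V.valuation t) with h | h | h
    · exfalso
      have := pow_lt_pow_left₀ h (zero_le (a := V.valuation _)) hN.ne'
      rw [hxt] at this
      exact lt_irrefl _ this
    · exact h
    · exfalso
      have := pow_lt_pow_left₀ h (zero_le (a := V.valuation _)) hN.ne'
      rw [hxt] at this
      exact lt_irrefl _ this
  have hvt0 : V.valuation t ≠ 0 := by rw [Ne, map_eq_zero]; exact ht0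
  have hx0 : x ≠ 0 := by
    intro h
    rw [h, map_zero] at hvx
    exact hvt0 hvx.symm
  refine ⟨hx0, ?_, fun f hf => ?_⟩
  · rw [ValuationSubring.mem_nonunits_iff, hvx]
    exact (V.mem_nonunits_iff).1 htnu
  · have h1 := htunif f hf
    rw [← V.valuation_le_one_iff] at h1 ⊢
    rw [map_mul, map_inv₀] at h1 ⊢
    rwa [hvx]

/-- The congruence `x ^ N g₂ ≡ w ^ k g₁` (`g₁, g₂ ∉ 𝔪`) and `w ^ k = unit · t ^ N` with `t` a
uniformiser of `V₂` force `x` to be a uniformiser of `V₂`. -/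
theorem lite_unifAt_of_cong (w : R) (B : Subalgebra R F) (V₂ : ValuationSubring F)
    (hw0 : algebraMap R F w ≠ 0)
    (hB₂ : ∀ b : B, (b : F) ∈ V₂)
    (𝔪 : Ideal B) (hthr : Through B 𝔪 V₂)
    (x g₁ g₂ : B) (k N : ℕ) (hN : 0 < N)
    (t : F) (ht : UnifAt V₂ t) (hwt : UnitAt V₂ (algebraMap R F w ^ k * (t ^ N)⁻¹))
    (hg₁ : g₁ ∉ 𝔪) (hg₂ : g₂ ∉ 𝔪)
    (hcong : ((x : F) ^ N * (g₂ : F) - algebraMap R F w ^ k * (g₁ : F))
        * (algebraMap R F w ^ k)⁻¹ ∈ V₂.nonunits) :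
    UnifAt V₂ (x : F) := by
  have hwk0 : algebraMap R F w ^ k ≠ 0 := pow_ne_zero k hw0
  have hvg₁ := lite_valuation_eq_one_of_not_mem B V₂ hB₂ 𝔪 hthr hg₁
  have hvg₂ := lite_valuation_eq_one_of_not_mem B V₂ hB₂ 𝔪 hthr hg₂
  have hysplit : (x : F) ^ N * (g₂ : F) * (algebraMap R F w ^ k)⁻¹
      = ((x : F) ^ N * (g₂ : F) - algebraMap R F w ^ k * (g₁ : F)) * (algebraMap R F w ^ k)⁻¹
        + (g₁ : F) := by
    field_simp
    ring
  have hone : V₂.valuation ((x : F) ^ N * (g₂ : F) * (algebraMap R F w ^ k)⁻¹) = 1 := by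
    rw [hysplit, ← hvg₁]
    apply Valuation.map_add_eq_of_lt_right
    rw [hvg₁]
    exact (V₂.mem_nonunits_iff).1 hcong
  have hvw : V₂.valuation (algebraMap R F w ^ k) = V₂.valuation t ^ N := by
    have h := lite_valuation_eq_one V₂ hwt
    rw [map_mul, map_inv₀, map_pow V₂.valuation t] at h
    have hne : V₂.valuation t ^ N ≠ 0 := by
      apply pow_ne_zero
      rw [Ne, map_eq_zero]; exact ht.1
    calc V₂.valuation (algebraMap R F w ^ k)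
        = V₂.valuation (algebraMap R F w ^ k) * (V₂.valuation t ^ N)⁻¹ * V₂.valuation t ^ N := by
          rw [mul_assoc, inv_mul_cancel₀ hne, mul_one]
      _ = V₂.valuation t ^ N := by rw [h, one_mul]
  have hvx : V₂.valuation (x : F) ^ N = V₂.valuation t ^ N := by
    rw [map_mul, map_mul, map_inv₀, map_pow V₂.valuation (x : F), hvg₂, mul_one] at hone
    have hne : V₂.valuation (algebraMap R F w ^ k) ≠ 0 := by rw [Ne, map_eq_zero]; exact hwk0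
    calc V₂.valuation (x : F) ^ N
        = V₂.valuation (x : F) ^ N * (V₂.valuation (algebraMap R F w ^ k))⁻¹
            * V₂.valuation (algebraMap R F w ^ k) := by
          rw [mul_assoc, inv_mul_cancel₀ hne, mul_one]
      _ = V₂.valuation t ^ N := by rw [hone, one_mul, hvw]
  exact lite_unifAt_of_pow V₂ t (x : F) N hN ht hvx

/-- **REG-lite from `Qep3`, ramification form**: `w ^ k = unit · t ^ N` at `V₂` (`t` a
uniformiser) instead of "`x` is a uniformiser of `V₂`".  Application: `k = 12`,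
`N = 12 (q - 1)`, `t` from `ram₂`. -/
theorem principalAt_lite' (w : R) (B : Subalgebra R F) (V₁ V₂ V₃ : ValuationSubring F)
    (hB₁ : ∀ b : B, (b : F) ∈ V₁) (hB₂ : ∀ b : B, (b : F) ∈ V₂) (hB₃ : ∀ b : B, (b : F) ∈ V₃)
    (hqep : Qep3 w B V₁ V₂ V₃)
    (hu₁ : UnifAt V₁ (algebraMap R F w)) (hu₃ : UnifAt V₃ (algebraMap R F w))
    (𝔪 : Ideal B) (h𝔪 : 𝔪.IsPrime) (hthr : Through B 𝔪 V₂)
    (hn₁ : ¬ Through B 𝔪 V₁) (hn₃ : ¬ Through B 𝔪 V₃)
    (x g₁ g₂ : B) (k N : ℕ) (hN : 0 < N)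
    (t : F) (ht : UnifAt V₂ t) (hwt : UnitAt V₂ (algebraMap R F w ^ k * (t ^ N)⁻¹))
    (hg₁ : g₁ ∉ 𝔪) (hg₂ : g₂ ∉ 𝔪)
    (hcong : ((x : F) ^ N * (g₂ : F) - algebraMap R F w ^ k * (g₁ : F))
        * (algebraMap R F w ^ k)⁻¹ ∈ V₂.nonunits) :
    PrincipalAt B 𝔪 V₂ :=
  principalAt_lite w B V₁ V₂ V₃ hB₁ hB₂ hB₃ hqep hu₁ hu₃ 𝔪 h𝔪 hthr hn₁ hn₃ x g₁ g₂ k N hN
    (lite_unifAt_of_cong w B V₂ hu₁.1 hB₂ 𝔪 hthr x g₁ g₂ k N hN t ht hwt hg₁ hg₂ hcong)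
    hg₁ hcong

/-- `ram₂` in the form used by `principalAt_lite'`: `w = unit · t ^ e` ⟹
`w ^ k = unit · t ^ (k e)`. -/
theorem lite_unitAt_pow (V : ValuationSubring F) {a t : F} (e k : ℕ)
    (h : UnitAt V (a * (t ^ e)⁻¹)) : UnitAt V (a ^ k * (t ^ (k * e))⁻¹) := by
  obtain ⟨h0, h1, h2⟩ := h
  have heq : a ^ k * (t ^ (k * e))⁻¹ = (a * (t ^ e)⁻¹) ^ k := by
    rw [mul_pow, inv_pow, ← pow_mul, mul_comm e k]
  refine ⟨?_, ?_, ?_⟩
  · rw [heq]; exact pow_ne_zero k h0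
  · rw [heq]; exact pow_mem h1 k
  · rw [heq, ← inv_pow]; exact pow_mem h2 k

end Fermat.Agent.S36.H876
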